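import Fermat.Agent.S37.H340.KronTwist
import Fermat.Agent.S37.H340.KronFrob
import Fermat.Agent.S37.H400.KronNorm

/-!
# S37 / R3-K : bridge between the two landed Kronecker libraries (helper340)

`Fermat.Agent.S37.H400` (`secL`, `secMat`, `kronPoly`, `kronNorm`) and
`Fermat.Agent.S37.H340` (`sect`, `kronMat`, `kron`, twists `tw`) define the same objects.
This file identifies them and transports the **product formula over the twists** to
`H400.kronPoly` / `H400.kronNorm`, the shape consumed by NORM-ID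
(`charpoly_{F_{Nℓ}/β F_N}(α f) = (Y - f(q^{ℓ²})) ∏_{b<ℓ} (Y - f(ζ^b q))`):

* `secL_eq_sect`, `secMat_eq_kronMat`, `kronPoly_eq_mul_kron`;
* `qExpand_det_kronMat` : `V (det (kronMat ℓ f)) = ∏_b f(ζ^b q)`;
* `qExpand_kronNorm` : `V (kronNorm ℓ f) = f(q^{ℓ²}) · ∏_b f(ζ^b q)`;
* `kronPoly_map_qExpand_eq_prod` :
  `(kronPoly ℓ f).map V = (Y - f(q^{ℓ²})) · ∏_b (Y - f(ζ^b q))`;
* `det_kronMat_char` : in characteristic `ℓ`, `det (kronMat ℓ f) = f^φ`.
-/

set_option autoImplicit false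

noncomputable section

namespace Fermat.Agent.S37.H340

open ModularCurve Polynomial Matrix

variable {R : Type*} [CommRing R] (ℓ : ℕ) [NeZero ℓ]

theorem secL_eq_sect (r : ℤ) (f : LaurentSeries R) : H400.secL ℓ r f = sect ℓ r f := by
  ext n
  rw [H400.secL_coeff, sect_coeff]

theorem secMat_eq_kronMat (f : LaurentSeries R) : H400.secMat ℓ f = kronMat ℓ f := by
  refine Matrix.ext fun i j => ?_
  rw [H400.secMat_apply', secL_eq_sect, kronMat_apply]

theorem kronPoly_eq_mul_kron (f : LaurentSeries R) :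
    H400.kronPoly ℓ f = (X - C (qExpand R ℓ f)) * kron ℓ f := by
  rw [H400.kronPoly, secMat_eq_kronMat, kron]

theorem kronNorm_eq (f : LaurentSeries R) :
    H400.kronNorm ℓ f = qExpand R ℓ f * (kronMat ℓ f).det := by
  rw [H400.kronNorm, secMat_eq_kronMat]

variable {ℓ}

/-- `V (det (kronMat ℓ f)) = ∏_{b<ℓ} f(ζ^b q)`. -/
theorem qExpand_det_kronMat [IsDomain R] {ζ : R} (hζ : IsPrimitiveRoot ζ ℓ)
    (f : LaurentSeries R) :
    qExpand R ℓ (kronMat ℓ f).det = ∏ b : Fin ℓ, tw ℓ (ζ ^ (b : ℕ)) f := by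
  classical
  have h := congrArg (fun P : (LaurentSeries R)[X] => P.coeff 0) (kron_map_qExpand_eq_prod hζ f)
  simp only [Polynomial.coeff_map] at h
  have h1 : (kron ℓ f).coeff 0 = (-1) ^ ℓ * (kronMat ℓ f).det := by
    have := Matrix.det_eq_sign_charpoly_coeff (kronMat ℓ f)
    rw [Fintype.card_fin] at this
    rw [kron, this, ← mul_assoc, ← pow_two, ← pow_mul, mul_comm ℓ 2, pow_mul, neg_one_sq,
      one_pow, one_mul]
  have h2 : (∏ b : Fin ℓ, (X - Polynomial.C (tw ℓ (ζ ^ (b : ℕ)) f))).coeff 0 =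
      (-1) ^ ℓ * ∏ b : Fin ℓ, tw ℓ (ζ ^ (b : ℕ)) f := by
    rw [Polynomial.coeff_zero_eq_eval_zero, Polynomial.eval_prod]
    simp only [Polynomial.eval_sub, Polynomial.eval_X, Polynomial.eval_C, zero_sub]
    rw [Finset.prod_neg, Finset.card_univ, Fintype.card_fin]
  rw [h1, h2, map_mul, map_pow, map_neg, map_one] at h
  have hu : IsUnit ((-1 : LaurentSeries R) ^ ℓ) := (isUnit_one.neg).pow ℓ
  exact hu.mul_left_cancel h

/-- `V (kronNorm ℓ f) = f(q^{ℓ²}) · ∏_{b<ℓ} f(ζ^b q)`. -/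
theorem qExpand_kronNorm [IsDomain R] {ζ : R} (hζ : IsPrimitiveRoot ζ ℓ)
    (f : LaurentSeries R) :
    qExpand R ℓ (H400.kronNorm ℓ f) =
      qExpand R ℓ (qExpand R ℓ f) * ∏ b : Fin ℓ, tw ℓ (ζ ^ (b : ℕ)) f := by
  rw [kronNorm_eq, map_mul, qExpand_det_kronMat hζ]

/-- `(kronPoly ℓ f).map V = (Y - f(q^{ℓ²})) · ∏_{b<ℓ} (Y - f(ζ^b q))`. -/
theorem kronPoly_map_qExpand_eq_prod [IsDomain R] {ζ : R} (hζ : IsPrimitiveRoot ζ ℓ)
    (f : LaurentSeries R) :
    (H400.kronPoly ℓ f).map (qExpand R ℓ) =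
      (X - C (qExpand R ℓ (qExpand R ℓ f))) *
        ∏ b : Fin ℓ, (X - Polynomial.C (tw ℓ (ζ ^ (b : ℕ)) f)) := by
  rw [kronPoly_eq_mul_kron, Polynomial.map_mul, kron_map_qExpand_eq_prod hζ,
    Polynomial.map_sub, Polynomial.map_X, Polynomial.map_C]

variable (ℓ)

/-- In characteristic `ℓ` the determinant of the section matrix is the coefficientwise
Frobenius twist of `f`. -/
theorem det_kronMat_char [hℓ : Fact ℓ.Prime] [CharP R ℓ] [IsDomain R] (f : LaurentSeries R) :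
    (kronMat ℓ f).det = coeffMap (frobenius R ℓ) f := by
  rw [← secMat_eq_kronMat]
  exact H400.det_secMat_char ℓ f

end Fermat.Agent.S37.H340
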